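import Mathlib
import Fermat.Prelude.Def_GaloisRep_DeformationCondition
import Fermat.Agent.H58.ProRep.Defs

set_option autoImplicit false

namespace Fermat.Agent.H56

open IsLocalRing GaloisRep Fermat.Agent.H58

/-- PR-T3: algebra homs into test algebras are local. -/
theorem isLocalHom_of_test (𝒪 : Type) [CommRing 𝒪] [IsLocalRing 𝒪]
    (R B : Type) [CommRing R] [IsLocalRing R] [Algebra 𝒪 R] [CommRing B] [IsLocalRing B]
    [Algebra 𝒪 B] (hB : Function.Surjective (IsLocalRing.residue B ∘ algebraMap 𝒪 B))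
    (q : R →ₐ[𝒪] B) : IsLocalHom (q : R →+* B) := by
  set φ : R →+* ResidueField B := (IsLocalRing.residue B).comp (q : R →+* B) with hφ
  have hsurj : Function.Surjective φ := by
    intro y
    obtain ⟨c, hc⟩ := hB y
    refine ⟨algebraMap 𝒪 R c, ?_⟩
    simp only [hφ, RingHom.comp_apply, AlgHom.coe_toRingHom, AlgHom.commutes]
    exact hc
  have hmax : (RingHom.ker φ).IsMaximal := RingHom.ker_isMaximal_of_surjective φ hsurj
  have hker : RingHom.ker φ = maximalIdeal R := IsLocalRing.eq_maximalIdeal hmax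
  refine ⟨fun r hr => ?_⟩
  by_contra hnu
  have h1 : r ∈ RingHom.ker φ := by
    rw [hker]
    exact (IsLocalRing.mem_maximalIdeal r).mpr hnu
  have h2 : IsLocalRing.residue B (q r) = 0 := h1
  rw [IsLocalRing.residue_eq_zero_iff] at h2
  exact (IsLocalRing.mem_maximalIdeal _).mp h2 hr

/-- `algebraMap 𝒪 B` is local as soon as `𝒪 → B → k_B` is surjective. -/
theorem isLocalHom_algebraMap_of_surjective (𝒪 : Type) [CommRing 𝒪] [IsLocalRing 𝒪]
    (B : Type) [CommRing B] [IsLocalRing B] [Algebra 𝒪 B]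
    (hB : Function.Surjective (IsLocalRing.residue B ∘ algebraMap 𝒪 B)) :
    IsLocalHom (algebraMap 𝒪 B) :=
  isLocalHom_of_test 𝒪 𝒪 B hB (Algebra.ofId 𝒪 B)

/-- PR-T5: a quotient of a test algebra by a proper ideal is a test algebra. -/
theorem test_quotient (𝒪 : Type) [CommRing 𝒪] [IsLocalRing 𝒪]
    (A : Type) [CommRing A] [IsLocalRing A] [Algebra 𝒪 A] (hA : IsArtinianTestAlgebra 𝒪 A)
    (I : Ideal A) (hI : I ≠ ⊤) :
    ∃ (_ : IsLocalRing (A ⧸ I)), IsArtinianTestAlgebra 𝒪 (A ⧸ I) := by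
  have hnt : Nontrivial (A ⧸ I) := Ideal.Quotient.nontrivial_iff.mpr hI
  have hloc : IsLocalRing (A ⧸ I) :=
    IsLocalRing.of_surjective' (Ideal.Quotient.mk I) Ideal.Quotient.mk_surjective
  refine ⟨hloc, ?_⟩
  have hsurj : Function.Surjective (IsLocalRing.residue (A ⧸ I) ∘ algebraMap 𝒪 (A ⧸ I)) := by
    intro y
    obtain ⟨z, rfl⟩ := IsLocalRing.residue_surjective y
    obtain ⟨a, rfl⟩ := Ideal.Quotient.mk_surjective z
    obtain ⟨c, hc⟩ := hA.residue_surjective (IsLocalRing.residue A a)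
    refine ⟨c, ?_⟩
    have h1 : algebraMap 𝒪 A c - a ∈ maximalIdeal A := by
      rw [← IsLocalRing.residue_eq_zero_iff, map_sub, sub_eq_zero]
      exact hc
    have h2 : (Ideal.Quotient.mk I) (algebraMap 𝒪 A c - a) ∈ maximalIdeal (A ⧸ I) := by
      rw [← IsLocalRing.map_maximalIdeal_of_surjective (Ideal.Quotient.mk I)
        Ideal.Quotient.mk_surjective]
      exact Ideal.mem_map_of_mem _ h1
    rw [← IsLocalRing.residue_eq_zero_iff] at h2
    have h3 : IsLocalRing.residue (A ⧸ I) ((Ideal.Quotient.mk I) (algebraMap 𝒪 A c)) -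
        IsLocalRing.residue (A ⧸ I) ((Ideal.Quotient.mk I) a) = 0 := by
      rw [← map_sub, ← map_sub]; exact h2
    exact sub_eq_zero.mp h3
  have hart : IsArtinianRing A := hA.isArtinian
  exact ⟨isLocalHom_algebraMap_of_surjective 𝒪 (A ⧸ I) hsurj, hsurj,
    Function.Surjective.isArtinianRing (f := Ideal.Quotient.mk I) Ideal.Quotient.mk_surjective⟩

/-- PR-T6a: the residue field is a test algebra. -/
theorem test_residueField (𝒪 : Type) [CommRing 𝒪] [IsLocalRing 𝒪] :
    IsArtinianTestAlgebra 𝒪 (ResidueField 𝒪) := by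
  have hsurj : Function.Surjective
      (IsLocalRing.residue (ResidueField 𝒪) ∘ algebraMap 𝒪 (ResidueField 𝒪)) := by
    intro y
    obtain ⟨z, rfl⟩ := IsLocalRing.residue_surjective y
    obtain ⟨c, rfl⟩ := IsLocalRing.residue_surjective z
    exact ⟨c, rfl⟩
  exact ⟨isLocalHom_algebraMap_of_surjective 𝒪 (ResidueField 𝒪) hsurj, hsurj, inferInstance⟩

/-- PR-T6b: the dual numbers are a test algebra. -/
theorem test_dualNumber (𝒪 : Type) [CommRing 𝒪] [IsLocalRing 𝒪] :
    letI : Algebra 𝒪 (DualNumber (ResidueField 𝒪)) := dualNumberAlgebra 𝒪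
    IsArtinianTestAlgebra 𝒪 (DualNumber (ResidueField 𝒪)) := by
  let _ : Algebra 𝒪 (DualNumber (ResidueField 𝒪)) := dualNumberAlgebra 𝒪
  have hsurj : Function.Surjective
      (IsLocalRing.residue (DualNumber (ResidueField 𝒪)) ∘
        algebraMap 𝒪 (DualNumber (ResidueField 𝒪))) := by
    intro y
    obtain ⟨z, rfl⟩ := IsLocalRing.residue_surjective y
    obtain ⟨c, hc⟩ := IsLocalRing.residue_surjective (TrivSqZeroExt.fst z)
    refine ⟨c, ?_⟩
    have h1 : algebraMap 𝒪 (DualNumber (ResidueField 𝒪)) c =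
        algebraMap (ResidueField 𝒪) (DualNumber (ResidueField 𝒪)) (IsLocalRing.residue 𝒪 c) := rfl
    have h2 : algebraMap 𝒪 (DualNumber (ResidueField 𝒪)) c - z ∈
        maximalIdeal (DualNumber (ResidueField 𝒪)) := by
      rw [DualNumber.maximalIdeal_eq_span_singleton_eps, Ideal.mem_span_singleton,
        ← DualNumber.fst_eq_zero_iff_eps_dvd, h1, hc]
      simp [TrivSqZeroExt.algebraMap_eq_inl]
    show IsLocalRing.residue _ (algebraMap 𝒪 (DualNumber (ResidueField 𝒪)) c) = _
    rw [← sub_eq_zero, ← map_sub, IsLocalRing.residue_eq_zero_iff]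
    exact h2
  have hart : IsArtinianRing (DualNumber (ResidueField 𝒪)) := by
    rw [isArtinianRing_iff_isNilpotent_maximalIdeal]
    refine ⟨2, ?_⟩
    rw [DualNumber.maximalIdeal_eq_span_singleton_eps, Ideal.span_singleton_pow]
    simp [pow_two]
  exact ⟨isLocalHom_algebraMap_of_surjective 𝒪 (DualNumber (ResidueField 𝒪)) hsurj, hsurj, hart⟩

end Fermat.Agent.H56
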