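import Mathlib
import Fermat.Agent.H78.ARTDefs2
import Fermat.Agent.H12.DefD
import Fermat.Agent.H12.DefE
import Fermat.Agent.H56.ProRep.TestAlgebras

/-!
# P-DEFRING ART-2: finitely many coordinates generate every admissible quotient

`exists_finset_gen`: if `P` is a pro-representable predicate (finitely many tangent vectors), there
is a finite set `F` of coordinates such that for every admissible ideal `a` the quotient
`MvPolynomial X O ⧸ a` is generated as an `O`-algebra by the classes of the `X f`, `f ∈ F`.
-/

set_option autoImplicit false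
set_option linter.style.haveILetI false
set_option linter.unusedSectionVars false

noncomputable section

namespace Fermat.Agent.H56

open IsLocalRing Fermat.Agent.H78

section separating

/-- A finite set of functions is separated by finitely many arguments. -/
theorem exists_finset_separating {X Y : Type*} (T : Set (X → Y)) (hT : T.Finite) :
    ∃ F : Finset X, ∀ t ∈ T, ∀ t' ∈ T, (∀ f ∈ F, t f = t' f) → t = t' := by
  classical
  refine ⟨(hT.toFinset ×ˢ hT.toFinset).biUnion
    (fun p => if h : ∃ f, p.1 f ≠ p.2 f then {Classical.choose h} else ∅), ?_⟩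
  intro t ht t' ht' hF
  by_contra hne
  have hex : ∃ f, t f ≠ t' f := Function.ne_iff.1 hne
  have hmem : Classical.choose hex ∈ (hT.toFinset ×ˢ hT.toFinset).biUnion
      (fun p => if h : ∃ f, p.1 f ≠ p.2 f then {Classical.choose h} else ∅) := by
    rw [Finset.mem_biUnion]
    refine ⟨(t, t'), ?_, ?_⟩
    · rw [Finset.mem_product]
      exact ⟨hT.mem_toFinset.2 ht, hT.mem_toFinset.2 ht'⟩
    · simp only [dif_pos hex, Finset.mem_singleton]
  exact Classical.choose_spec hex (hF _ hmem)

end separating

section dualHom

/-- The ring hom `a ↦ ρ a + D a ε` into the dual numbers attached to a `ρ`-derivation `D`. -/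
def dualHomOf {A k : Type} [CommRing A] [CommRing k] (ρ : A →+* k) (D : A →+ k)
    (hD : ∀ a b, D (a * b) = ρ a * D b + ρ b * D a) : A →+* DualNumber k where
  toFun a := TrivSqZeroExt.inl (ρ a) + TrivSqZeroExt.inr (D a)
  map_one' := by
    have h1 : D 1 = 0 := by
      have := hD 1 1
      simp only [mul_one, map_one, one_mul] at this
      have h2 : D 1 + D 1 = D 1 + 0 := by rw [add_zero]; exact this.symm
      exact add_left_cancel h2
    ext <;> simp [h1]
  map_mul' a b := by
    ext
    · simp
    · simp [hD, mul_comm]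
  map_zero' := by ext <;> simp
  map_add' a b := by
    ext
    · simp
    · simp

@[simp] theorem dualHomOf_apply {A k : Type} [CommRing A] [CommRing k] (ρ : A →+* k) (D : A →+ k)
    (hD : ∀ a b, D (a * b) = ρ a * D b + ρ b * D a) (a : A) :
    dualHomOf ρ D hD a = TrivSqZeroExt.inl (ρ a) + TrivSqZeroExt.inr (D a) := rfl

variable {O : Type} [CommRing O] [IsLocalRing O] {A : Type} [CommRing A] [IsLocalRing A]
  [Algebra O A]

theorem residueFieldMap_bijective (hloc : IsLocalHom (algebraMap O A))
    (hsurj : Function.Surjective (IsLocalRing.residue A ∘ algebraMap O A)) :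
    Function.Bijective (ResidueField.map (algebraMap O A)) := by
  refine ⟨(ResidueField.map (algebraMap O A)).injective, fun x => ?_⟩
  obtain ⟨o, ho⟩ := hsurj x
  exact ⟨IsLocalRing.residue O o, by simpa [ResidueField.map_residue] using ho⟩

/-- The canonical map `A → k` for a local `O`-algebra whose residue field is that of `O`. -/
def resToBase (hloc : IsLocalHom (algebraMap O A))
    (hsurj : Function.Surjective (IsLocalRing.residue A ∘ algebraMap O A)) :
    A →+* ResidueField O :=
  ((RingEquiv.ofBijective (ResidueField.map (algebraMap O A))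
    (residueFieldMap_bijective hloc hsurj)).symm : ResidueField A →+* ResidueField O).comp
    (IsLocalRing.residue A)

theorem resToBase_algebraMap (hloc : IsLocalHom (algebraMap O A))
    (hsurj : Function.Surjective (IsLocalRing.residue A ∘ algebraMap O A)) (o : O) :
    resToBase hloc hsurj (algebraMap O A o) = IsLocalRing.residue O o := by
  simp only [resToBase, RingHom.coe_comp, RingHom.coe_coe, Function.comp_apply]
  rw [RingEquiv.symm_apply_eq]
  simp [ResidueField.map_residue]

theorem resToBase_eq_zero_iff (hloc : IsLocalHom (algebraMap O A))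
    (hsurj : Function.Surjective (IsLocalRing.residue A ∘ algebraMap O A)) (a : A) :
    resToBase hloc hsurj a = 0 ↔ a ∈ maximalIdeal A := by
  simp only [resToBase, RingHom.coe_comp, RingHom.coe_coe, Function.comp_apply]
  rw [map_eq_zero_iff _ (RingEquiv.injective _), residue_eq_zero_iff]

theorem exists_resToBase_eq (hloc : IsLocalHom (algebraMap O A))
    (hsurj : Function.Surjective (IsLocalRing.residue A ∘ algebraMap O A)) (a : A) :
    ∃ o : O, IsLocalRing.residue O o = resToBase hloc hsurj a ∧
      a - algebraMap O A o ∈ maximalIdeal A := by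
  obtain ⟨o, ho⟩ := IsLocalRing.residue_surjective (resToBase hloc hsurj a)
  refine ⟨o, ho, ?_⟩
  rw [← resToBase_eq_zero_iff hloc hsurj, map_sub, resToBase_algebraMap, ho, sub_self]

/-- Existence of a nonzero "tangent vector": an additive map `D : A → k` which is a derivation
over `A → k`, kills `O` and `I`, and does not kill `y`. -/
theorem exists_tangent_deriv (hloc : IsLocalHom (algebraMap O A))
    (hsurj : Function.Surjective (IsLocalRing.residue A ∘ algebraMap O A))
    (I : Ideal A) (hI : I ≤ maximalIdeal A) (hsq : maximalIdeal A ^ 2 ≤ I)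
    (hϖ : ∀ ϖ ∈ maximalIdeal O, algebraMap O A ϖ ∈ I) (y : A) (hyI : y ∉ I)
    (hy : y ∈ maximalIdeal A) :
    ∃ D : A →+ ResidueField O,
      (∀ a b, D (a * b) = resToBase hloc hsurj a * D b + resToBase hloc hsurj b * D a) ∧
      (∀ o, D (algebraMap O A o) = 0) ∧ (∀ z ∈ I, D z = 0) ∧ D y ≠ 0 := by
  -- the quotient `A ⧸ I` is a vector space over the residue field of `O`
  have htors : Module.IsTorsionBySet O (A ⧸ I) (maximalIdeal O : Set O) := by
    intro x ϖ
    obtain ⟨a, rfl⟩ := Ideal.Quotient.mk_surjective x
    have h1 : (ϖ : O) • (Ideal.Quotient.mk I a) = Ideal.Quotient.mk I (algebraMap O A ϖ * a) := by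
      rw [Algebra.smul_def]
      rfl
    rw [h1, Ideal.Quotient.eq_zero_iff_mem]
    exact I.mul_mem_right _ (hϖ ϖ ϖ.2)
  let instMod : Module (ResidueField O) (A ⧸ I) :=
    (Module.IsTorsionBySet.module htors : Module (O ⧸ maximalIdeal O) (A ⧸ I))
  have hsmul : ∀ (o : O) (x : A ⧸ I), (IsLocalRing.residue O o) • x = o • x := fun o x => rfl
  have hmk : ∀ (o : O) (a : A), Ideal.Quotient.mk I (algebraMap O A o * a) =
      (IsLocalRing.residue O o) • Ideal.Quotient.mk I a := by
    intro o a
    rw [hsmul, Algebra.smul_def]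
    rfl
  -- `mk y` is not in the line spanned by `1`
  have hnotin : Ideal.Quotient.mk I y ∉ Submodule.span (ResidueField O) {(1 : A ⧸ I)} := by
    intro hmem
    obtain ⟨r, hr⟩ := Submodule.mem_span_singleton.1 hmem
    obtain ⟨o, rfl⟩ := IsLocalRing.residue_surjective r
    have h1 : Ideal.Quotient.mk I (algebraMap O A o) = Ideal.Quotient.mk I y := by
      rw [← hr]
      have := hmk o 1
      rw [mul_one, map_one] at this
      exact this
    have h2 : algebraMap O A o - y ∈ I := by
      rw [← Ideal.Quotient.eq_zero_iff_mem, map_sub, h1, sub_self]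
    have h3 : algebraMap O A o ∈ maximalIdeal A := by
      have := (maximalIdeal A).add_mem (hI h2) hy
      simpa using this
    have h4 : o ∈ maximalIdeal O := by
      rw [mem_maximalIdeal, mem_nonunits_iff]
      intro hu
      exact h3 (hu.map (algebraMap O A))
    have h5 : y ∈ I := by
      have := I.sub_mem (hϖ o h4) h2
      simpa using this
    exact hyI h5
  obtain ⟨f, hfy, hf⟩ := Submodule.exists_dual_map_eq_bot_of_notMem hnotin inferInstance
  have hf1 : f 1 = 0 := by
    have : f 1 ∈ (Submodule.span (ResidueField O) {(1 : A ⧸ I)}).map f :=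
      Submodule.mem_map_of_mem (Submodule.subset_span rfl)
    rw [hf] at this
    exact (Submodule.mem_bot _).1 this
  let D : A →+ ResidueField O :=
    (f : (A ⧸ I) →+ ResidueField O).comp (Ideal.Quotient.mk I : A →+ A ⧸ I)
  have hDapp : ∀ a, D a = f (Ideal.Quotient.mk I a) := fun a => rfl
  have hDalg : ∀ o a, D (algebraMap O A o * a) = IsLocalRing.residue O o * D a := by
    intro o a
    rw [hDapp, hDapp, hmk, map_smul, smul_eq_mul]
  have hDO : ∀ o, D (algebraMap O A o) = 0 := by
    intro o
    have := hDalg o 1
    rw [mul_one] at this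
    rw [this, hDapp, map_one, hf1, mul_zero]
  have hDI : ∀ z ∈ I, D z = 0 := by
    intro z hz
    rw [hDapp, Ideal.Quotient.eq_zero_iff_mem.2 hz, map_zero]
  refine ⟨D, ?_, hDO, hDI, hfy⟩
  intro a b
  obtain ⟨oa, hoa, ha⟩ := exists_resToBase_eq hloc hsurj a
  obtain ⟨ob, hob, hb⟩ := exists_resToBase_eq hloc hsurj b
  have hab : (a - algebraMap O A oa) * (b - algebraMap O A ob) ∈ I := by
    apply hsq
    rw [pow_two]
    exact Ideal.mul_mem_mul ha hb
  have hexp : a * b = (a - algebraMap O A oa) * (b - algebraMap O A ob)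
      + algebraMap O A oa * b + algebraMap O A ob * a
      - algebraMap O A oa * algebraMap O A ob := by ring
  have h1 : D (algebraMap O A oa * algebraMap O A ob) = 0 := by
    rw [← map_mul]; exact hDO _
  rw [hexp, map_sub, map_add, map_add, hDI _ hab, hDalg, hDalg, h1, hoa, hob]
  ring

end dualHom

section nakayamaSub

/-- A subalgebra `B` of a finite local ring `A` which surjects onto the residue field and
contains generators of the maximal ideal is everything. -/
theorem subalgebra_eq_top_of_span {O A : Type} [CommRing O] [CommRing A] [IsLocalRing A]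
    [Algebra O A] [Finite A] (B : Subalgebra O A) (G : Set A) (hGB : G ⊆ (B : Set A))
    (hGm : G ⊆ (maximalIdeal A : Set A)) (hspan : maximalIdeal A ≤ Ideal.span G)
    (hres : ∀ z : A, ∃ b ∈ B, z - b ∈ maximalIdeal A) : B = ⊤ := by
  obtain ⟨hBloc, hBval⟩ := Fermat.Agent.H12.subalgebra_isLocalRing O A B
  -- the `B`-submodule `m_B • ⊤` of `A` contains the ideal generated by `G`
  have hJ : ∀ z ∈ Ideal.span G, z ∈ maximalIdeal B • (⊤ : Submodule B A) := by
    intro z hz
    induction hz using Submodule.span_induction with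
    | mem g hg =>
      have hgm : (⟨g, hGB hg⟩ : B) ∈ maximalIdeal B := by
        rw [mem_maximalIdeal, mem_nonunits_iff]
        intro hu
        exact hGm hg (hu.map B.val)
      have h1 : (⟨g, hGB hg⟩ : B) • (1 : A) ∈ maximalIdeal B • (⊤ : Submodule B A) :=
        Submodule.smul_mem_smul hgm Submodule.mem_top
      rwa [Subalgebra.smul_def, smul_eq_mul, mul_one] at h1
    | zero => exact Submodule.zero_mem _
    | add x y _ _ hx hy => exact Submodule.add_mem _ hx hy
    | smul r x _ hx =>
      rw [smul_eq_mul]
      refine Submodule.smul_induction_on (p := fun x => r * x ∈ maximalIdeal B •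
        (⊤ : Submodule B A)) hx ?_ ?_
      · intro b hb w _
        have h1 : b • (r * w) ∈ maximalIdeal B • (⊤ : Submodule B A) :=
          Submodule.smul_mem_smul hb Submodule.mem_top
        rw [Subalgebra.smul_def, smul_eq_mul, mul_left_comm] at h1
        rwa [Subalgebra.smul_def, smul_eq_mul]
      · intro u v hu hv
        rw [mul_add]
        exact Submodule.add_mem _ hu hv
  have key : (⊤ : Submodule B A) ≤ Submodule.span B {(1 : A)} := by
    apply Submodule.le_of_le_smul_of_le_jacobson_bot (I := maximalIdeal B)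
    · exact (Module.Finite.of_finite (R := B) (M := A)).fg_top
    · rw [IsLocalRing.jacobson_eq_maximalIdeal ⊥ bot_ne_top]
    · intro z _
      obtain ⟨b, hb, hz⟩ := hres z
      have h1 : b ∈ Submodule.span B {(1 : A)} := by
        rw [Submodule.mem_span_singleton]
        refine ⟨⟨b, hb⟩, ?_⟩
        rw [Subalgebra.smul_def, smul_eq_mul, mul_one]
      have h2 : z - b ∈ maximalIdeal B • (⊤ : Submodule B A) := hJ _ (hspan hz)
      have hzz : z = b + (z - b) := by ring
      rw [hzz]
      exact Submodule.add_mem_sup h1 h2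
  rw [eq_top_iff]
  intro x _
  obtain ⟨b, hb⟩ := Submodule.mem_span_singleton.1 (key (Submodule.mem_top : x ∈ ⊤))
  rw [← hb, Subalgebra.smul_def, smul_eq_mul, mul_one]
  exact b.2

end nakayamaSub

section main

variable {O : Type} [CommRing O] [IsDomain O] [IsDiscreteValuationRing O]
  [IsAdicComplete (maximalIdeal O) O] [Finite (ResidueField O)] {X : Type} {c : X → O}
  {P : PointPred O X}

/-- **ART-2**: finitely many coordinates generate every admissible quotient. -/
theorem exists_finset_gen (hP : IsProRepresentablePred O c P) :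
    ∃ F : Finset X, ∀ a : Ideal (MvPolynomial X O), Admissible P a →
      Algebra.adjoin O ((taut a) '' (F : Set X)) = ⊤ := by
  classical
  letI instDN : Algebra O (DualNumber (ResidueField O)) := dualNumberAlgebra O
  have htd : GaloisRep.IsArtinianTestAlgebra O (DualNumber (ResidueField O)) :=
    test_dualNumber O
  -- the finite set of tangent vectors
  let T : Set (X → DualNumber (ResidueField O)) := {x | P x}
  have hT : T.Finite := by
    have hfin : Finite ↑T := hP.tfin
    exact Set.toFinite T
  obtain ⟨F, hF⟩ := exists_finset_separating T hT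
  refine ⟨F, fun a ha => ?_⟩
  obtain ⟨hlocA, htest, hPa⟩ := ha
  have hloc := htest.isLocalHom
  have hsurj := htest.residue_surjective
  haveI : Finite (MvPolynomial X O ⧸ a) := Fermat.Agent.H12.finite_of_test O _ htest
  let G : Set (MvPolynomial X O ⧸ a) :=
    (algebraMap O (MvPolynomial X O ⧸ a) '' (maximalIdeal O : Set O)) ∪
      ((fun f => taut a f - algebraMap O (MvPolynomial X O ⧸ a) (c f)) '' (F : Set X))
  have hGm : G ⊆ (maximalIdeal (MvPolynomial X O ⧸ a) : Set (MvPolynomial X O ⧸ a)) := by
    rintro g (⟨ϖ, hϖ, rfl⟩ | ⟨f, -, rfl⟩)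
    · intro hu
      exact hϖ (hloc.map_nonunit ϖ hu)
    · exact hP.red (taut a) hPa f
  let J : Ideal (MvPolynomial X O ⧸ a) := Ideal.span G
  have hJm : J ≤ maximalIdeal (MvPolynomial X O ⧸ a) := Ideal.span_le.2 hGm
  -- main claim: the cotangent space is spanned by the classes of `G`
  have hmain : maximalIdeal (MvPolynomial X O ⧸ a) ≤
      J ⊔ maximalIdeal (MvPolynomial X O ⧸ a) ^ 2 := by
    intro y hy
    by_contra hyI
    obtain ⟨D, hDmul, hDO, hDI, hDy⟩ := exists_tangent_deriv hloc hsurj
      (J ⊔ maximalIdeal (MvPolynomial X O ⧸ a) ^ 2)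
      (sup_le hJm (Ideal.pow_le_self two_ne_zero)) le_sup_right
      (fun ϖ hϖ => Ideal.mem_sup_left (Ideal.subset_span (Or.inl ⟨ϖ, hϖ, rfl⟩))) y hyI hy
    let h1 : (MvPolynomial X O ⧸ a) →ₐ[O] DualNumber (ResidueField O) :=
      { dualHomOf (resToBase hloc hsurj) D hDmul with
        commutes' := by
          intro o
          change dualHomOf (resToBase hloc hsurj) D hDmul (algebraMap O _ o) = _
          rw [dualHomOf_apply, resToBase_algebraMap, hDO]
          simp [RingHom.algebraMap_toAlgebra, TrivSqZeroExt.algebraMap_eq_inl] }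
    let h0 : (MvPolynomial X O ⧸ a) →ₐ[O] DualNumber (ResidueField O) :=
      { dualHomOf (resToBase hloc hsurj) 0 (by intro a b; simp) with
        commutes' := by
          intro o
          change dualHomOf (resToBase hloc hsurj) 0 _ (algebraMap O _ o) = _
          rw [dualHomOf_apply, resToBase_algebraMap]
          simp [RingHom.algebraMap_toAlgebra, TrivSqZeroExt.algebraMap_eq_inl] }
    have h1app : ∀ z, h1 z = TrivSqZeroExt.inl (resToBase hloc hsurj z) + TrivSqZeroExt.inr (D z) :=
      fun z => rfl
    have h0app : ∀ z, h0 z = TrivSqZeroExt.inl (resToBase hloc hsurj z) +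
        TrivSqZeroExt.inr ((0 : (MvPolynomial X O ⧸ a) →+ ResidueField O) z) :=
      fun z => rfl
    have hl1 : IsLocalHom (h1 : (MvPolynomial X O ⧸ a) →+* DualNumber (ResidueField O)) :=
      isLocalHom_of_test O _ _ htd.residue_surjective h1
    have hl0 : IsLocalHom (h0 : (MvPolynomial X O ⧸ a) →+* DualNumber (ResidueField O)) :=
      isLocalHom_of_test O _ _ htd.residue_surjective h0
    have hP1 : P (h1 ∘ taut a) := hP.push htest htd h1 hl1 (taut a) hPa
    have hP0 : P (h0 ∘ taut a) := hP.push htest htd h0 hl0 (taut a) hPa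
    have heq : (h1 ∘ taut a) = (h0 ∘ taut a) := by
      refine hF _ hP1 _ hP0 (fun f hf => ?_)
      simp only [Function.comp_apply, h1app, h0app, AddMonoidHom.zero_apply]
      have hfI : taut a f - algebraMap O (MvPolynomial X O ⧸ a) (c f) ∈
          J ⊔ maximalIdeal (MvPolynomial X O ⧸ a) ^ 2 :=
        Ideal.mem_sup_left (Ideal.subset_span (Or.inr ⟨f, hf, rfl⟩))
      have h2 := hDI _ hfI
      rw [map_sub, hDO, sub_zero] at h2
      rw [h2]
    have hDt : ∀ x, D (taut a x) = 0 := by
      intro x
      have h2 := congrArg TrivSqZeroExt.snd (congrFun heq x)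
      simpa [h1app, h0app] using h2
    have hDall : ∀ p : MvPolynomial X O, D (Ideal.Quotient.mk a p) = 0 := by
      intro p
      induction p using MvPolynomial.induction_on with
      | C o => exact hDO o
      | add p q hp hq => rw [map_add, map_add, hp, hq, add_zero]
      | mul_X p x hp =>
        rw [map_mul, hDmul, hp]
        have : Ideal.Quotient.mk a (MvPolynomial.X x) = taut a x := rfl
        rw [this, hDt]
        simp
    obtain ⟨p, rfl⟩ := Ideal.Quotient.mk_surjective y
    exact hDy (hDall p)
  -- Nakayama: the maximal ideal is generated by `G`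
  have hmJ : maximalIdeal (MvPolynomial X O ⧸ a) ≤ J := by
    haveI := htest.isArtinian
    apply Submodule.le_of_le_smul_of_le_jacobson_bot (I := maximalIdeal (MvPolynomial X O ⧸ a))
    · exact IsNoetherian.noetherian _
    · rw [IsLocalRing.jacobson_eq_maximalIdeal ⊥ bot_ne_top]
    · rw [smul_eq_mul, ← pow_two]
      exact hmain
  -- final step: Nakayama over the subalgebra
  have hGB : G ⊆ (Algebra.adjoin O ((taut a) '' (F : Set X)) : Set (MvPolynomial X O ⧸ a)) := by
    rintro g (⟨ϖ, -, rfl⟩ | ⟨f, hf, rfl⟩)
    · exact Subalgebra.algebraMap_mem _ ϖ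
    · exact Subalgebra.sub_mem _ (Algebra.subset_adjoin ⟨f, hf, rfl⟩)
        (Subalgebra.algebraMap_mem _ _)
  refine subalgebra_eq_top_of_span _ G hGB hGm hmJ (fun z => ?_)
  obtain ⟨o, -, hz⟩ := exists_resToBase_eq hloc hsurj z
  exact ⟨algebraMap O _ o, Subalgebra.algebraMap_mem _ o, hz⟩

end main

end Fermat.Agent.H56
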